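import Mathlib.Analysis.SpecialFunctions.Complex.CircleAddChar
import Mathlib.NumberTheory.LegendreSymbol.AddCharacter
import Mathlib.Analysis.SpecialFunctions.Trigonometric.Basic

/-!
# Bogolyubov's lemma

For `B ⊆ ℤ / q` of size `β q` there are at most `β ^ (-2)` frequencies whose Bohr set of radius
`1 / 4` lies in `2 B - 2 B`.
-/

set_option autoImplicit false

noncomputable section

namespace FA.FreimanTheorem

open Finset
open scoped ComplexConjugate

variable {q : ℕ} [NeZero q]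

/-- The Fourier transform of the indicator of `B`. -/
def hat (B : Finset (ZMod q)) (r : ZMod q) : ℂ := ∑ b ∈ B, ZMod.stdAddChar (r * b)

theorem sum_stdAddChar_mul (y : ZMod q) :
    ∑ r : ZMod q, ZMod.stdAddChar (r * y) = if y = 0 then (q : ℂ) else 0 := by
  rw [AddChar.sum_mulShift y (ZMod.isPrimitive_stdAddChar q)]
  simp

theorem sum_hat_mul_conj (B : Finset (ZMod q)) :
    ∑ r : ZMod q, hat B r * conj (hat B r) = (q : ℂ) * #B := by
  simp only [hat, map_sum, sum_mul_sum, ← AddChar.map_neg_eq_conj, ← AddChar.map_add_eq_mul,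
    ← sub_eq_add_neg, ← mul_sub]
  rw [sum_comm]
  simp_rw [sum_comm (s := (univ : Finset (ZMod q))), sum_stdAddChar_mul, sub_eq_zero, sum_ite_eq]
  rw [sum_congr rfl fun b hb => if_pos hb, sum_const, nsmul_eq_mul, mul_comm]

theorem sum_norm_hat_sq (B : Finset (ZMod q)) :
    ∑ r : ZMod q, ‖hat B r‖ ^ 2 = (q : ℝ) * #B := by
  have h := sum_hat_mul_conj B
  simp only [Complex.mul_conj'] at h
  exact_mod_cast h

theorem norm_hat_zero (B : Finset (ZMod q)) : ‖hat B 0‖ = #B := by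
  simp [hat]

/-- The fourth power sum that detects `x` in `2 B - 2 B`. -/
theorem sum_norm_pow_four_mul_eq_zero {B : Finset (ZMod q)} {x : ZMod q}
    (h : ¬∃ b₁ ∈ B, ∃ b₂ ∈ B, ∃ b₃ ∈ B, ∃ b₄ ∈ B, b₁ + b₂ - b₃ - b₄ = x) :
    ∑ r : ZMod q, ‖hat B r‖ ^ 4 * (ZMod.stdAddChar (r * x)).re = 0 := by
  have h0 : ∑ r : ZMod q, hat B r * hat B r * (conj (hat B r) * conj (hat B r)) *
      ZMod.stdAddChar (-(r * x)) = 0 := by
    have expand : ∀ (f g u v : ZMod q → ℂ) (e : ℂ),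
        (∑ a ∈ B, f a) * (∑ b ∈ B, g b) * ((∑ c ∈ B, u c) * ∑ d ∈ B, v d) * e =
          ∑ a ∈ B, ∑ b ∈ B, ∑ c ∈ B, ∑ d ∈ B, f a * g b * (u c * v d) * e :=
      fun f g u v e => by simp only [← mul_sum, ← sum_mul]
    simp only [hat, map_sum, ← AddChar.map_neg_eq_conj]
    rw [sum_congr rfl fun r _ => expand _ _ _ _ _]
    simp only [← AddChar.map_add_eq_mul]
    rw [sum_comm]
    refine sum_eq_zero fun b₁ h₁ => ?_
    rw [sum_comm]
    refine sum_eq_zero fun b₂ h₂ => ?_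
    rw [sum_comm]
    refine sum_eq_zero fun b₃ h₃ => ?_
    rw [sum_comm]
    refine sum_eq_zero fun b₄ h₄ => ?_
    rw [sum_congr rfl fun r _ => congrArg _
      (show r * b₁ + r * b₂ + (-(r * b₃) + -(r * b₄)) + -(r * x) =
        r * (b₁ + b₂ - b₃ - b₄ - x) by ring), sum_stdAddChar_mul, if_neg]
    exact fun e => h ⟨b₁, h₁, b₂, h₂, b₃, h₃, b₄, h₄, sub_eq_zero.1 e⟩
  have h1 := congrArg Complex.re h0
  rw [Complex.re_sum, Complex.zero_re] at h1
  rw [← h1]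
  refine sum_congr rfl fun r _ => ?_
  have e : hat B r * hat B r * (conj (hat B r) * conj (hat B r)) = ((‖hat B r‖ ^ 4 : ℝ) : ℂ) := by
    rw [mul_mul_mul_comm, Complex.mul_conj']
    push_cast
    ring
  rw [e, Complex.re_ofReal_mul, AddChar.map_neg_eq_conj, Complex.conj_re]

/-- **Bogolyubov's lemma.** -/
theorem bogolyubov {B : Finset (ZMod q)} (hB : B.Nonempty) :
    ∃ Γ : Finset (ZMod q), #Γ * #B ^ 2 ≤ q ^ 2 ∧ ∀ x : ZMod q,
      (∀ r ∈ Γ, 0 ≤ (ZMod.stdAddChar (r * x)).re) →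
        ∃ b₁ ∈ B, ∃ b₂ ∈ B, ∃ b₃ ∈ B, ∃ b₄ ∈ B, b₁ + b₂ - b₃ - b₄ = x := by
  have hq : (0 : ℝ) < q := Nat.cast_pos.2 (NeZero.pos q)
  have hb : (0 : ℝ) < #B := Nat.cast_pos.2 hB.card_pos
  set θ : ℝ := (#B : ℝ) ^ 3 / q with hθ
  have hθ0 : 0 < θ := by positivity
  set Γ := (univ.erase (0 : ZMod q)).filter fun r => θ < ‖hat B r‖ ^ 2 with hΓ
  refine ⟨Γ, ?_, fun x hx => by_contra fun hno => ?_⟩
  · have h1 : (#Γ : ℝ) * θ ≤ q * #B := by
      rw [← sum_norm_hat_sq, ← nsmul_eq_mul, ← sum_const]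
      exact (sum_le_sum fun r hr => (mem_filter.1 hr).2.le).trans
        (sum_le_sum_of_subset_of_nonneg (subset_univ _) fun r _ _ => by positivity)
    rw [hθ, mul_div_assoc', div_le_iff₀ hq] at h1
    have h2 : (#Γ : ℝ) * #B ^ 2 ≤ (q : ℝ) ^ 2 := by
      refine le_of_mul_le_mul_right ?_ hb
      linarith
    exact_mod_cast h2
  have h := sum_norm_pow_four_mul_eq_zero hno
  rw [← add_sum_erase _ _ (mem_univ (0 : ZMod q)), norm_hat_zero, zero_mul,
    AddChar.map_zero_eq_one, Complex.one_re, mul_one,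
    ← sum_filter_add_sum_filter_not (univ.erase (0 : ZMod q)) (fun r => θ < ‖hat B r‖ ^ 2)] at h
  have hbig : 0 ≤ ∑ r ∈ Γ, ‖hat B r‖ ^ 4 * (ZMod.stdAddChar (r * x)).re :=
    sum_nonneg fun r hr => mul_nonneg (by positivity) (hx r hr)
  have hsmall : -(θ * ((q : ℝ) * #B - (#B : ℝ) ^ 2)) ≤
      ∑ r ∈ (univ.erase (0 : ZMod q)).filter (fun r => ¬θ < ‖hat B r‖ ^ 2),
        ‖hat B r‖ ^ 4 * (ZMod.stdAddChar (r * x)).re := by
    have e : (q : ℝ) * #B - (#B : ℝ) ^ 2 = ∑ r ∈ univ.erase (0 : ZMod q), ‖hat B r‖ ^ 2 := by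
      rw [← sum_norm_hat_sq, ← add_sum_erase _ _ (mem_univ (0 : ZMod q)), norm_hat_zero]
      ring
    refine (neg_le_neg ?_).trans ((sum_neg_distrib
      (f := fun r => θ * ‖hat B r‖ ^ 2)).symm.trans_le (sum_le_sum fun r hr => ?_))
    · rw [e, mul_sum]
      exact sum_le_sum_of_subset_of_nonneg (filter_subset _ _) fun r _ _ => by positivity
    · have h1 : -1 ≤ (ZMod.stdAddChar (r * x)).re := by
        have := neg_le_of_abs_le (Complex.abs_re_le_norm (ZMod.stdAddChar (r * x)))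
        rwa [AddChar.norm_apply] at this
      have h2 := not_lt.1 (mem_filter.1 hr).2
      nlinarith [sq_nonneg ‖hat B r‖, mul_le_mul_of_nonneg_left h1 (sq_nonneg (‖hat B r‖ ^ 2))]
  have hkey : θ * ((q : ℝ) * #B - (#B : ℝ) ^ 2) < (#B : ℝ) ^ 4 := by
    have e : θ * ((q : ℝ) * #B) = (#B : ℝ) ^ 4 := by
      rw [hθ]
      field_simp
    nlinarith [mul_pos hθ0 (pow_pos hb 2)]
  linarith

/-- A frequency with a small integer representative has non-negative real part. -/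
theorem re_stdAddChar_nonneg {y : ZMod q} {m : ℤ} (hm : (m : ZMod q) = y) (hb : 4 * |m| ≤ q) :
    0 ≤ (ZMod.stdAddChar y).re := by
  rw [← hm, ZMod.stdAddChar_coe,
    show 2 * (Real.pi : ℂ) * Complex.I * m / q =
      ((2 * Real.pi * m / q : ℝ) : ℂ) * Complex.I by push_cast; ring,
    Complex.exp_ofReal_mul_I_re]
  have hq : (0 : ℝ) < q := Nat.cast_pos.2 (NeZero.pos q)
  have h4 : 4 * |(m : ℝ)| ≤ q := by exact_mod_cast hb
  refine Real.cos_nonneg_of_mem_Icc ⟨?_, ?_⟩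
  · rw [le_div_iff₀ hq]
    nlinarith [Real.pi_pos, neg_abs_le (m : ℝ)]
  · rw [div_le_iff₀ hq]
    nlinarith [Real.pi_pos, le_abs_self (m : ℝ)]

end FA.FreimanTheorem
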