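import Mathlib.Analysis.InnerProductSpace.GramSchmidtOrtho
import Mathlib.Analysis.InnerProductSpace.PiL2
import Mathlib.Data.Fin.Tuple.Sort
import Mathlib.Data.ZMod.Basic
import Mathlib.Algebra.Order.Floor.Semiring

/-!
# A proper progression inside a Bohr set

For `r : Fin k → ℤ / q` with an entry `1` the lattice `w ≡ n r (mod q)` has a sorted basis of
`ℝ ^ k` of short vectors `v`. No nonzero lattice vector has all Gram-Schmidt coordinates below
`|v i| / k`; counting cells for the `q` residues gives `∏ (q / |v i| + 1) ≫ q`. Hence the box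
`|x i| ≤ q / (4 k |v i|)` maps injectively into the Bohr set and has `≫ q` points.
-/

set_option autoImplicit false

noncomputable section

namespace FA.FreimanTheorem

open Finset

variable {k q : ℕ}

/-- An integer vector as a point of Euclidean space. -/
def realVec (w : Fin k → ℤ) : EuclideanSpace ℝ (Fin k) := WithLp.toLp 2 fun l => (w l : ℝ)

/-- The squared length of an integer vector. -/
def sqLen (w : Fin k → ℤ) : ℕ := ∑ l, (w l).natAbs ^ 2

theorem realVec_apply (w : Fin k → ℤ) (l : Fin k) : realVec w l = (w l : ℝ) := rfl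

theorem norm_realVec_sq (w : Fin k → ℤ) : ‖realVec w‖ ^ 2 = (sqLen w : ℝ) := by
  rw [EuclideanSpace.norm_sq_eq, sqLen, Nat.cast_sum]
  refine sum_congr rfl fun l _ => ?_
  rw [realVec_apply, Real.norm_eq_abs, sq_abs, Nat.cast_pow, Nat.cast_natAbs]
  push_cast
  rw [sq_abs]

theorem realVec_sub (w w' : Fin k → ℤ) : realVec (w - w') = realVec w - realVec w' := by
  ext l
  simp [realVec_apply]

theorem realVec_injective : Function.Injective (realVec : (Fin k → ℤ) → _) := fun w w' h =>
  funext fun l => Int.cast_injective (α := ℝ)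
    (by rw [← realVec_apply, ← realVec_apply, h])

/-- The lattice of a family of frequencies, the entry `i₀` being the multiplier. -/
def InLattice (r : Fin k → ZMod q) (i₀ : Fin k) (w : Fin k → ℤ) : Prop :=
  ∀ l, (w l : ZMod q) = r l * (w i₀ : ZMod q)

/-- `k` independent lattice vectors. -/
def IsFamily (r : Fin k → ZMod q) (i₀ : Fin k) (v : Fin k → Fin k → ℤ) : Prop :=
  (∀ i, InLattice r i₀ (v i)) ∧ LinearIndependent ℝ (realVec ∘ v)

theorem exists_family [NeZero q] (r : Fin k → ZMod q) (i₀ : Fin k) :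
    ∃ v, IsFamily r i₀ v := by
  refine ⟨fun i l => if i = l then (q : ℤ) else 0, fun i l => ?_,
    Fintype.linearIndependent_iff.2 fun c hc i => ?_⟩
  · dsimp only
    split_ifs <;> simp
  · have h := congrArg (fun x : EuclideanSpace ℝ (Fin k) => x i) hc
    simpa [realVec_apply, NeZero.ne q] using h

/-- A family of least total squared length, sorted. -/
theorem exists_minimal_family [NeZero q] (r : Fin k → ZMod q) (i₀ : Fin k) :
    ∃ v, IsFamily r i₀ v ∧ Monotone (sqLen ∘ v) ∧
      ∀ v', IsFamily r i₀ v' → ∑ i, sqLen (v i) ≤ ∑ i, sqLen (v' i) := by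
  classical
  have hex : ∃ N, ∃ v, IsFamily r i₀ v ∧ ∑ i, sqLen (v i) = N := by
    obtain ⟨v, hv⟩ := exists_family r i₀
    exact ⟨_, v, hv, rfl⟩
  obtain ⟨v, hv, hN⟩ := Nat.find_spec hex
  refine ⟨v ∘ Tuple.sort (sqLen ∘ v), ⟨fun i => hv.1 _, hv.2.comp _ (Equiv.injective _)⟩,
    Tuple.monotone_sort (sqLen ∘ v), fun v' hv' => ?_⟩
  rw [show (∑ i, sqLen ((v ∘ Tuple.sort (sqLen ∘ v)) i)) = ∑ i, sqLen (v i) from
    Equiv.sum_comp (Tuple.sort (sqLen ∘ v)) fun i => sqLen (v i), hN]
  exact Nat.find_min' hex ⟨v', hv', rfl⟩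

/-- A lattice vector involving `v j` is no shorter than `v j`. -/
theorem sqLen_le_of_ne_zero {r : Fin k → ZMod q} {i₀ : Fin k} {v : Fin k → Fin k → ℤ}
    (hv : IsFamily r i₀ v)
    (hmin : ∀ v', IsFamily r i₀ v' → ∑ i, sqLen (v i) ≤ ∑ i, sqLen (v' i))
    {w : Fin k → ℤ} (hw : InLattice r i₀ w) {a : Fin k → ℝ}
    (ha : ∑ i, a i • realVec (v i) = realVec w) {j : Fin k} (hj : a j ≠ 0) :
    sqLen (v j) ≤ sqLen w := by
  classical
  have hfam : IsFamily r i₀ (Function.update v j w) := by
    refine ⟨fun i => ?_, Fintype.linearIndependent_iff.2 fun c hc => ?_⟩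
    · rcases eq_or_ne i j with rfl | hi
      · rwa [Function.update_self]
      · rw [Function.update_of_ne hi]
        exact hv.1 i
    · have h : ∑ i, (c j * a i + if i = j then 0 else c i) • realVec (v i) = 0 := by
        rw [← hc]
        simp only [add_smul, sum_add_distrib, mul_smul, ← smul_sum, ha, Function.comp_apply]
        rw [← add_sum_erase _ (fun i => c i • realVec (Function.update v j w i)) (mem_univ j),
          Function.update_self, ← add_sum_erase _ _ (mem_univ j), if_pos rfl, zero_smul, zero_add]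
        refine congrArg _ (sum_congr rfl fun i hi => ?_)
        rw [if_neg (ne_of_mem_erase hi), Function.update_of_ne (ne_of_mem_erase hi)]
      have h0 := Fintype.linearIndependent_iff.1 hv.2 _ h
      have hcj : c j = 0 := by simpa [hj] using h0 j
      intro i
      rcases eq_or_ne i j with rfl | hi
      · exact hcj
      · simpa [hcj, hi] using h0 i
  have h := hmin _ hfam
  rw [← add_sum_erase _ _ (mem_univ j), ← add_sum_erase _ _ (mem_univ j),
    Function.update_self] at h
  rw [sum_congr rfl fun i hi =>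
    congrArg sqLen (Function.update_of_ne (ne_of_mem_erase hi) w v)] at h
  omega

/-- The Gram-Schmidt frame of a family. -/
def frame (v : Fin k → Fin k → ℤ) : OrthonormalBasis (Fin k) ℝ (EuclideanSpace ℝ (Fin k)) :=
  InnerProductSpace.gramSchmidtOrthonormalBasis (finrank_euclideanSpace) (realVec ∘ v)

/-- No nonzero lattice vector has all coordinates in the frame small. -/
theorem eq_zero_of_small {r : Fin k → ZMod q} {i₀ : Fin k} {v : Fin k → Fin k → ℤ}
    (hv : IsFamily r i₀ v) (hmono : Monotone (sqLen ∘ v))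
    (hmin : ∀ v', IsFamily r i₀ v' → ∑ i, sqLen (v i) ≤ ∑ i, sqLen (v' i))
    {w : Fin k → ℤ} (hw : InLattice r i₀ w)
    (hsmall : ∀ i, (k : ℝ) * (frame v).repr (realVec w) i ^ 2 < sqLen (v i)) : w = 0 := by
  classical
  have : Nonempty (Fin k) := ⟨i₀⟩
  set b := basisOfLinearIndependentOfCardEqFinrank hv.2 (finrank_euclideanSpace).symm with hb
  have ha : ∑ i, b.repr (realVec w) i • realVec (v i) = realVec w := by
    have := b.sum_repr (realVec w)
    simpa [hb, coe_basisOfLinearIndependentOfCardEqFinrank] using this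
  set a : Fin k → ℝ := fun i => b.repr (realVec w) i with hadef
  by_cases h0 : ∀ i, a i = 0
  · refine realVec_injective ?_
    rw [← ha, show realVec (0 : Fin k → ℤ) = 0 by ext l; simp [realVec_apply]]
    exact sum_eq_zero fun i _ => by rw [show b.repr (realVec w) i = 0 from h0 i, zero_smul]
  push Not at h0
  obtain ⟨j, hj, hjmax⟩ := exists_max_image (univ.filter fun i => a i ≠ 0) id
    (h0.elim fun i hi => ⟨i, mem_filter.2 ⟨mem_univ i, hi⟩⟩)
  have hle := sqLen_le_of_ne_zero hv hmin hw ha (mem_filter.1 hj).2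
  have hzero : ∀ i, j < i → (frame v).repr (realVec w) i = 0 := fun i hi => by
    rw [← ha, OrthonormalBasis.repr_apply_apply, inner_sum]
    refine sum_eq_zero fun l _ => ?_
    rw [inner_smul_right]
    rcases eq_or_ne (a l) 0 with hl | hl
    · rw [show b.repr (realVec w) l = 0 from hl, zero_mul]
    · rw [frame]
      exact mul_eq_zero_of_right _ (InnerProductSpace.gramSchmidtOrthonormalBasis_inv_triangular _
        (realVec ∘ v) ((hjmax l (mem_filter.2 ⟨mem_univ l, hl⟩)).trans_lt hi))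
  have hk : (0 : ℝ) < k := Nat.cast_pos.2 i₀.pos
  have hjpos : (0 : ℝ) < sqLen (v j) :=
    lt_of_le_of_lt (by positivity) (hsmall j)
  have hlt : (k : ℝ) * ‖realVec w‖ ^ 2 < k * sqLen (v j) := by
    rw [← (frame v).repr.norm_map, EuclideanSpace.norm_sq_eq, mul_sum]
    calc ∑ i, (k : ℝ) * ‖(frame v).repr (realVec w) i‖ ^ 2
        < ∑ _i : Fin k, (sqLen (v j) : ℝ) := by
          refine sum_lt_sum_of_nonempty univ_nonempty fun i _ => ?_
          rw [Real.norm_eq_abs, sq_abs]
          rcases lt_or_ge j i with hi | hi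
          · rw [hzero i hi]
            simpa using hjpos
          · exact (hsmall i).trans_le (Nat.cast_le.2 (hmono hi))
      _ = k * sqLen (v j) := by simp
  rw [norm_realVec_sq, mul_lt_mul_iff_right₀ hk, Nat.cast_lt] at hlt
  omega

/-- **A proper progression in a Bohr set.** -/
theorem exists_gap [NeZero q] (r : Fin k → ZMod q) {i₀ : Fin k} (h₀ : r i₀ = 1) :
    ∃ (n : Fin k → ZMod q) (M : Fin k → ℕ),
      (∀ x : Fin k → ℤ, (∀ i, |x i| ≤ M i) →
        ∀ l, ∃ m : ℤ, (m : ZMod q) = r l * ∑ i, (x i : ZMod q) * n i ∧ 4 * |m| ≤ q) ∧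
      (∀ x y : Fin k → ℤ, (∀ i, |x i| ≤ M i) → (∀ i, |y i| ≤ M i) →
        ∑ i, (x i : ZMod q) * n i = ∑ i, (y i : ZMod q) * n i → x = y) ∧
      q ≤ (10 * k ^ 3) ^ k * ∏ i, (2 * M i + 1) := by
  classical
  obtain ⟨v, hv, hmono, hmin⟩ := exists_minimal_family r i₀
  have hk : (0 : ℝ) < k := Nat.cast_pos.2 i₀.pos
  have hq : (0 : ℝ) < q := Nat.cast_pos.2 (NeZero.pos q)
  set lam : Fin k → ℝ := fun i => ‖realVec (v i)‖ with hlam
  have hpos : ∀ i, 0 < lam i := fun i => norm_pos_iff.2 (hv.2.ne_zero i)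
  have hcoord : ∀ i l, |(v i l : ℝ)| ≤ lam i := fun i l => by
    have := PiLp.norm_apply_le (realVec (v i)) l
    rwa [realVec_apply, Real.norm_eq_abs] at this
  obtain ⟨M, hMdef⟩ : ∃ M : Fin k → ℕ, M = fun i => ⌊(q : ℝ) / (4 * k * lam i)⌋₊ := ⟨_, rfl⟩
  have hM : ∀ i, (M i : ℝ) * lam i ≤ q / (4 * k) := fun i => by
    rw [← le_div_iff₀ (hpos i), hMdef, div_div]
    exact Nat.floor_le (by have := hpos i; positivity)
  have hbound : ∀ x : Fin k → ℤ, (∀ i, |x i| ≤ M i) → ∀ l,
      4 * |∑ i, x i * v i l| ≤ (q : ℤ) := by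
    intro x hx l
    have : 4 * |∑ i, (x i : ℝ) * (v i l : ℝ)| ≤ q := by
      refine (mul_le_mul_of_nonneg_left ((abs_sum_le_sum_abs _ _).trans
        (sum_le_sum (g := fun _ => (q : ℝ) / (4 * k)) fun i _ => ?_)) (by norm_num)).trans_eq ?_
      · rw [abs_mul]
        refine le_trans ?_ (hM i)
        exact mul_le_mul (by exact_mod_cast hx i) (hcoord i l) (abs_nonneg _) (Nat.cast_nonneg _)
      · rw [sum_const, card_univ, Fintype.card_fin, nsmul_eq_mul]
        field_simp
    exact_mod_cast this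
  have hcast : ∀ (x : Fin k → ℤ) l, ((∑ i, x i * v i l : ℤ) : ZMod q) =
      r l * ∑ i, (x i : ZMod q) * (v i i₀ : ZMod q) := fun x l => by
    push_cast
    rw [mul_sum]
    refine sum_congr rfl fun i _ => ?_
    rw [hv.1 i l]
    ring
  refine ⟨fun i => (v i i₀ : ZMod q), M, fun x hx l => ⟨_, hcast x l, hbound x hx l⟩,
    fun x y hx hy hxy => ?_, ?_⟩
  · have hz : ∀ l, ∑ i, x i * v i l = ∑ i, y i * v i l := fun l => by
      have h1 : ((∑ i, x i * v i l : ℤ) : ZMod q) = ((∑ i, y i * v i l : ℤ) : ZMod q) := by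
        rw [hcast, hcast, hxy]
      rw [ZMod.intCast_eq_intCast_iff_dvd_sub] at h1
      have hx' := hbound x hx l
      have hy' := hbound y hy l
      have := le_abs_self (∑ i, x i * v i l)
      have := neg_abs_le (∑ i, x i * v i l)
      have := le_abs_self (∑ i, y i * v i l)
      have := neg_abs_le (∑ i, y i * v i l)
      have := Int.eq_zero_of_dvd_of_natAbs_lt_natAbs h1 (by
        have := NeZero.pos q
        omega)
      omega
    have h : ∑ i, ((x i : ℝ) - y i) • realVec (v i) = 0 := by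
      ext l
      have : ∑ i, (x i : ℝ) * (v i l : ℝ) = ∑ i, (y i : ℝ) * (v i l : ℝ) := by
        exact_mod_cast hz l
      simp [realVec_apply, sub_mul, sum_sub_distrib, this]
    exact funext fun i => Int.cast_injective (α := ℝ)
      (sub_eq_zero.1 (Fintype.linearIndependent_iff.1 hv.2 _ h i))
  obtain ⟨T, hTdef⟩ : ∃ T : Fin k → ℕ,
      T = fun i => ⌊(k : ℝ) ^ 2 * q / lam i⌋₊ + 1 := ⟨_, rfl⟩
  obtain ⟨w, hwdef⟩ : ∃ w : ZMod q → Fin k → ℤ, w = fun n l => ((r l * n).val : ℤ) := ⟨_, rfl⟩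
  have hwL : ∀ n, InLattice r i₀ (w n) := fun n l => by
    simp [hwdef, ZMod.natCast_val, h₀]
  have hwnorm : ∀ n, ‖realVec (w n)‖ ≤ k * q := fun n => by
    refine (sq_le_sq₀ (norm_nonneg _) (by positivity)).1 ?_
    rw [norm_realVec_sq]
    have h : sqLen (w n) ≤ k * q ^ 2 := by
      refine (sum_le_card_nsmul _ _ (q ^ 2) fun l _ => ?_).trans (by simp)
      refine Nat.pow_le_pow_left ?_ 2
      rw [hwdef]
      dsimp only
      rw [Int.natAbs_natCast]
      exact (ZMod.val_lt (r l * n)).le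
    refine (Nat.cast_le.2 h).trans ?_
    push_cast
    have hk1 : (1 : ℝ) ≤ k := Nat.one_le_cast.2 i₀.pos
    nlinarith [mul_nonneg (sub_nonneg.2 hk1) (mul_nonneg hk.le (sq_nonneg (q : ℝ)))]
  set cell : ZMod q → Fin k → ℤ :=
    fun n i => ⌊(k : ℝ) * (frame v).repr (realVec (w n)) i / lam i⌋ with hcell
  have hmaps : ∀ n : ZMod q, cell n ∈ Fintype.piFinset fun i => Ico (-(T i : ℤ)) (T i) := by
    intro n
    rw [Fintype.mem_piFinset]
    intro i
    have hy : |(k : ℝ) * (frame v).repr (realVec (w n)) i / lam i| < T i := by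
      rw [hTdef, abs_div, abs_of_pos (hpos i), abs_mul, abs_of_pos hk, Nat.cast_add, Nat.cast_one]
      refine lt_of_le_of_lt (div_le_div_of_nonneg_right ?_ (hpos i).le) (Nat.lt_floor_add_one _)
      have h1 := PiLp.norm_apply_le ((frame v).repr (realVec (w n))) i
      rw [(frame v).repr.norm_map, Real.norm_eq_abs] at h1
      calc (k : ℝ) * |(frame v).repr (realVec (w n)) i| ≤ k * (k * q) :=
            mul_le_mul_of_nonneg_left (h1.trans (hwnorm n)) hk.le
        _ = k ^ 2 * q := by ring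
    rw [abs_lt] at hy
    rw [mem_Ico, Int.le_floor, Int.floor_lt]
    push_cast
    exact ⟨hy.1.le, hy.2⟩
  have hinj : Set.InjOn cell (univ : Finset (ZMod q)) := by
    intro n _ n' _ h
    have hz : w n - w n' = 0 := by
      refine eq_zero_of_small hv hmono hmin (fun l => ?_) fun i => ?_
      · simp only [Pi.sub_apply, Int.cast_sub, hwL n l, hwL n' l, mul_sub]
      · have h1 := Int.abs_sub_lt_one_of_floor_eq_floor (congrFun h i)
        rw [← sub_div, ← mul_sub, abs_div, abs_of_pos (hpos i), div_lt_one (hpos i),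
          abs_mul, abs_of_pos hk] at h1
        rw [realVec_sub, map_sub, PiLp.sub_apply, ← norm_realVec_sq]
        set c := (frame v).repr (realVec (w n)) i - (frame v).repr (realVec (w n')) i
        change (k : ℝ) * c ^ 2 < lam i ^ 2
        have hk1 : (1 : ℝ) ≤ k := Nat.one_le_cast.2 i₀.pos
        have h2 : ((k : ℝ) * |c|) ^ 2 < lam i ^ 2 := pow_lt_pow_left₀ h1 (by positivity) two_ne_zero
        rw [mul_pow, sq_abs] at h2
        nlinarith [mul_nonneg (mul_nonneg (sub_nonneg.2 hk1) hk.le) (sq_nonneg c)]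
    have h2 := congrFun (sub_eq_zero.1 hz) i₀
    simp only [hwdef, h₀, one_mul, Nat.cast_inj] at h2
    exact ZMod.val_injective q h2
  have hcount := card_le_card_of_injOn cell (fun n _ => hmaps n) hinj
  rw [card_univ, ZMod.card, Fintype.card_piFinset] at hcount
  simp only [Int.card_Ico] at hcount
  have hTM : ∀ i, ((T i : ℤ) - -(T i : ℤ)).toNat ≤ 10 * k ^ 3 * (2 * M i + 1) := by
    intro i
    have h1 : (q : ℝ) / (4 * k * lam i) < M i + 1 := by
      rw [hMdef]
      exact Nat.lt_floor_add_one _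
    have h2 : ((T i : ℕ) : ℝ) ≤ 5 * k ^ 3 * (M i + 1) := by
      rw [hTdef, Nat.cast_add, Nat.cast_one]
      have hfl := Nat.floor_le (a := (k : ℝ) ^ 2 * q / lam i) (by have := hpos i; positivity)
      have e : (k : ℝ) ^ 2 * q / lam i = 4 * k ^ 3 * (q / (4 * k * lam i)) := by
        have := (hpos i).ne'
        field_simp
      have hk1 : (1 : ℝ) ≤ k := Nat.one_le_cast.2 i₀.pos
      nlinarith [mul_le_mul_of_nonneg_left h1.le (show (0 : ℝ) ≤ 4 * k ^ 3 by positivity),
        one_le_pow₀ hk1 (n := 3), Nat.cast_nonneg (α := ℝ) (M i)]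
    have h3 : T i ≤ 5 * k ^ 3 * (M i + 1) := by exact_mod_cast h2
    calc ((T i : ℤ) - -(T i : ℤ)).toNat = 2 * T i := by omega
      _ ≤ 2 * (5 * k ^ 3 * (M i + 1)) := Nat.mul_le_mul_left 2 h3
      _ = 10 * k ^ 3 * (M i + 1) := by ring
      _ ≤ 10 * k ^ 3 * (2 * M i + 1) := Nat.mul_le_mul_left _ (by omega)
  refine hcount.trans ((prod_le_prod' fun i _ => hTM i).trans_eq ?_)
  rw [prod_mul_distrib, prod_const, card_univ, Fintype.card_fin]

end FA.FreimanTheorem
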