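import Fermat.Agent.FreimanTheorem.Model
import Fermat.Agent.FreimanTheorem.Bogolyubov
import Fermat.Agent.FreimanTheorem.BohrGAP
import Mathlib.Combinatorics.Additive.RuzsaCovering

/-!
# Freiman's theorem

A large proper progression lies in `2 A - 2 A`, and Ruzsa's covering lemma puts `A` into a
progression of bounded dimension and of size `O (#A)`.
-/

set_option autoImplicit false

noncomputable section

namespace FA.FreimanTheorem

open Finset
open scoped Pointwise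

/-- The bound on the number of frequencies. -/
def freqBound (K : ℕ) : ℕ := 325 * K ^ 24

/-- The inverse proportion of the progression inside `2 A - 2 A`. -/
def gapLoss (K : ℕ) : ℕ := (10 * freqBound K ^ 3) ^ freqBound K

/-- The dimension in Freiman's theorem. -/
def freimanDim (K : ℕ) : ℕ := freqBound K + K ^ 5 * gapLoss K

/-- The size factor in Freiman's theorem. -/
def freimanConst (K : ℕ) : ℕ := 2 ^ freimanDim K * K ^ 4

theorem card_nsmul_sub_le {A : Finset ℤ} (hA : A.Nonempty) {K : ℕ} (hK : #(A + A) ≤ K * #A)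
    (m n : ℕ) : #(m • A - n • A) ≤ K ^ (m + n) * #A := by
  have h := pluennecke_ruzsa_inequality_nsmul_sub_nsmul_add hA A m n
  have h1 : (#(A + A) : ℚ≥0) / #A ≤ K := by
    rw [div_le_iff₀ (Nat.cast_pos.2 hA.card_pos)]
    exact_mod_cast hK
  have h2 : ((#(m • A - n • A) : ℕ) : ℚ≥0) ≤ ((K ^ (m + n) * #A : ℕ) : ℚ≥0) := by
    push_cast
    exact h.trans (mul_le_mul_of_nonneg_right (pow_le_pow_left' h1 _) zero_le)
  exact_mod_cast h2

variable {q : ℕ} {A : Finset ℤ} {φ : ℤ → ZMod q}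

/-- `u` is the image of `x = a₁ + a₂ - a₃ - a₄`. -/
def Lifts (A : Finset ℤ) (φ : ℤ → ZMod q) (x : ℤ) (u : ZMod q) : Prop :=
  ∃ a₁ ∈ A, ∃ a₂ ∈ A, ∃ a₃ ∈ A, ∃ a₄ ∈ A,
    a₁ + a₂ - a₃ - a₄ = x ∧ φ a₁ + φ a₂ - φ a₃ - φ a₄ = u

theorem lifts_zero {z : ℤ} (hz : z ∈ A) : Lifts A φ 0 0 :=
  ⟨z, hz, z, hz, z, hz, z, hz, by ring, by ring⟩

theorem IsModel.add_iff (hφ : IsModel A φ) {x y z : ℤ} {u v w : ZMod q} (hx : Lifts A φ x u)
    (hy : Lifts A φ y v) (hz : Lifts A φ z w) : u + v = w ↔ x + y = z := by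
  obtain ⟨a₁, ha₁, a₂, ha₂, a₃, ha₃, a₄, ha₄, rfl, rfl⟩ := hx
  obtain ⟨b₁, hb₁, b₂, hb₂, b₃, hb₃, b₄, hb₄, rfl, rfl⟩ := hy
  obtain ⟨c₁, hc₁, c₂, hc₂, c₃, hc₃, c₄, hc₄, rfl, rfl⟩ := hz
  have h := hφ ![a₁, a₂, b₁, b₂, c₃, c₄] ![a₃, a₄, b₃, b₄, c₁, c₂]
    (fun i => by fin_cases i <;> assumption) (fun i => by fin_cases i <;> assumption)
  simp only [Fin.sum_univ_six, Matrix.cons_val] at h
  constructor <;> intro e
  · linear_combination h.1 (by linear_combination e)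
  · linear_combination h.2 (by linear_combination e)

theorem IsModel.eq_iff (hφ : IsModel A φ) {x y : ℤ} {u v : ZMod q} (hx : Lifts A φ x u)
    (hy : Lifts A φ y v) : u = v ↔ x = y := by
  obtain ⟨z, hz, -⟩ := id hx
  simpa using hφ.add_iff hx (lifts_zero hz) hy

theorem IsModel.injOn (hφ : IsModel A φ) : Set.InjOn φ A := by
  intro x hx y hy h
  have h' := hφ ![x, x, x, x, x, x] ![y, x, x, x, x, x]
    (fun i => by fin_cases i <;> assumption) (fun i => by fin_cases i <;> assumption)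
  simp only [Fin.sum_univ_six, Matrix.cons_val] at h'
  have := h'.1 (by rw [h])
  linarith

/-- An additive map on a box is linear. -/
theorem eq_sum_mul_single {k : ℕ} {M : Fin k → ℕ} {H : (Fin k → ℤ) → ℤ} (h0 : H 0 = 0)
    (hadd : ∀ x y : Fin k → ℤ, (∀ i, |x i| ≤ M i) → (∀ i, |y i| ≤ M i) →
      (∀ i, |(x + y) i| ≤ M i) → H (x + y) = H x + H y)
    (x : Fin k → ℤ) (hx : ∀ i, |x i| ≤ M i) : H x = ∑ i, x i * H (Pi.single i 1) := by
  suffices ∀ (n : ℕ) (x : Fin k → ℤ), ∑ i, (x i).natAbs = n → (∀ i, |x i| ≤ M i) →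
      H x = ∑ i, x i * H (Pi.single i 1) from this _ x rfl hx
  intro n
  induction n using Nat.strong_induction_on with
  | _ n ih =>
    intro x hn hx
    by_cases h : ∀ i, x i = 0
    · rw [show x = 0 from funext h, h0]
      simp
    push Not at h
    obtain ⟨i, hi⟩ := h
    set e : Fin k → ℤ := Pi.single i 1 with he
    have hei : e i = 1 := by simp [he]
    have hej : ∀ j, j ≠ i → e j = 0 := fun j hj => by simp [he, hj]
    have heb : ∀ j, |e j| ≤ M j := fun j => by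
      rcases eq_or_ne j i with rfl | hj
      · rw [hei, abs_one]
        exact (Int.one_le_abs hi).trans (hx _)
      · simp [hej j hj]
    have hsum : ∑ j, e j * H (Pi.single j 1) = H e := by
      rw [sum_eq_single i (fun j _ hj => by rw [hej j hj, zero_mul]) (by simp), hei, one_mul]
    have hsmaller : ∀ y : Fin k → ℤ, (y i).natAbs + 1 = (x i).natAbs →
        (∀ j, j ≠ i → y j = x j) → (∑ j, (y j).natAbs < n ∧ ∀ j, |y j| ≤ M j) := by
      intro y hyi hyj
      refine ⟨?_, fun j => ?_⟩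
      · rw [← hn, ← add_sum_erase _ _ (mem_univ i), ← add_sum_erase _ _ (mem_univ i),
          sum_congr rfl fun j hj => by rw [hyj j (ne_of_mem_erase hj)]]
        omega
      · rcases eq_or_ne j i with rfl | hj
        · rw [← Int.natCast_natAbs]
          have h1 := hx j
          rw [← Int.natCast_natAbs] at h1
          omega
        · rw [hyj j hj]
          exact hx j
    rcases lt_or_gt_of_ne hi with hneg | hpos
    · obtain ⟨hy1, hy2⟩ := hsmaller (x + e) (by simp only [Pi.add_apply, hei]; omega)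
        (fun j hj => by simp [hej j hj])
      have h1 := ih _ hy1 (x + e) rfl hy2
      rw [hadd x e hx heb hy2] at h1
      simp only [Pi.add_apply, add_mul, sum_add_distrib, hsum] at h1
      linarith
    · obtain ⟨hy1, hy2⟩ := hsmaller (x - e) (by simp only [Pi.sub_apply, hei]; omega)
        (fun j hj => by simp [hej j hj])
      have h1 := ih _ hy1 (x - e) rfl hy2
      have h2 := hadd (x - e) e hy2 heb (by simpa using hx)
      rw [sub_add_cancel, h1] at h2
      simp only [Pi.sub_apply, sub_mul, sum_sub_distrib, hsum] at h2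
      linarith

/-- **A large progression in `2 A - 2 A`.** -/
theorem exists_gap_in_difference {K : ℕ} (hA : A.Nonempty) (hK : #(A + A) ≤ K * #A) :
    ∃ (k : ℕ) (D : Fin k → ℤ) (M : Fin k → ℕ), k ≤ freqBound K ∧
      Set.InjOn (fun x : Fin k → ℤ => ∑ i, x i * D i) {x | ∀ i, |x i| ≤ M i} ∧
      (∀ x : Fin k → ℤ, (∀ i, |x i| ≤ M i) → ∑ i, x i * D i ∈ 2 • A - 2 • A) ∧
      #A ≤ gapLoss K * ∏ i, (2 * M i + 1) := by
  classical
  obtain ⟨qq, hqq⟩ : ∃ n, n = 2 * #(6 • A - 6 • A) + 1 := ⟨_, rfl⟩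
  have : NeZero qq := ⟨by omega⟩
  obtain ⟨A', hA', hA6, φ, hφ⟩ := exists_model (A := A) (q := qq) (by omega)
  have hA'ne : A'.Nonempty := card_pos.1 (by have := hA.card_pos; omega)
  have hA1 : #A ≤ #(6 • A - 6 • A) :=
    (card_le_card_nsmul (by norm_num)).trans (card_le_card_sub_right hA.nsmul)
  have hK1 : 1 ≤ K := by
    by_contra h
    rw [show K = 0 by omega, zero_mul] at hK
    have := (hA.add hA).card_pos
    omega
  obtain ⟨Γ, hΓ, hbog⟩ := bogolyubov (hA'ne.image φ)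
  rw [card_image_of_injOn hφ.injOn] at hΓ
  set S := insert (1 : ZMod qq) Γ with hS
  set r : Fin #S → ZMod qq := fun i => S.equivFin.symm i with hr
  have hone : r (S.equivFin ⟨1, mem_insert_self _ _⟩) = 1 := by simp [hr]
  obtain ⟨nn, M, hbohr, hinj, hsize⟩ := exists_gap r hone
  have hlift : ∀ x : Fin #S → ℤ, (∀ i, |x i| ≤ M i) →
      ∃ z, Lifts A' φ z (∑ i, (x i : ZMod qq) * nn i) := by
    intro x hx
    obtain ⟨u₁, h₁, u₂, h₂, u₃, h₃, u₄, h₄, he⟩ := hbog _ fun s hs => by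
      obtain ⟨m, hm, hm4⟩ := hbohr x hx (S.equivFin ⟨s, mem_insert_of_mem hs⟩)
      rw [hr] at hm
      simp only [Equiv.symm_apply_apply] at hm
      exact re_stdAddChar_nonneg hm hm4
    obtain ⟨a₁, ha₁, rfl⟩ := mem_image.1 h₁
    obtain ⟨a₂, ha₂, rfl⟩ := mem_image.1 h₂
    obtain ⟨a₃, ha₃, rfl⟩ := mem_image.1 h₃
    obtain ⟨a₄, ha₄, rfl⟩ := mem_image.1 h₄
    exact ⟨_, a₁, ha₁, a₂, ha₂, a₃, ha₃, a₄, ha₄, rfl, he⟩
  choose! H hH using hlift
  have hzero : ∀ i, |(0 : Fin #S → ℤ) i| ≤ M i := fun i => by simp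
  have hH0 : H 0 = 0 :=
    ((hφ.eq_iff (hH 0 hzero) (lifts_zero hA'ne.choose_spec)).1 (by simp))
  have hlin : ∀ x : Fin #S → ℤ, (∀ i, |x i| ≤ M i) → H x = ∑ i, x i * H (Pi.single i 1) :=
    eq_sum_mul_single hH0 fun x y hx hy hxy =>
      ((hφ.add_iff (hH x hx) (hH y hy) (hH _ hxy)).1
        (by simp [add_mul, sum_add_distrib])).symm
  have hq : qq ≤ 3 * K ^ 12 * (6 * #A') := by
    have h1 : #(6 • A - 6 • A) ≤ K ^ 12 * #A := card_nsmul_sub_le hA hK 6 6
    have h3 : 0 < K ^ 12 * #A := Nat.mul_pos (by positivity) hA.card_pos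
    have h2 : 3 * K ^ 12 * #A ≤ 3 * K ^ 12 * (6 * #A') := Nat.mul_le_mul_left _ hA6
    rw [mul_assoc 3 (K ^ 12) #A] at h2
    omega
  have hk : #S ≤ freqBound K := by
    have hΓ' : #Γ ≤ 324 * K ^ 24 := by
      refine Nat.le_of_mul_le_mul_right (hΓ.trans ?_) (pow_pos hA'ne.card_pos 2)
      calc qq ^ 2 ≤ (3 * K ^ 12 * (6 * #A')) ^ 2 := Nat.pow_le_pow_left hq 2
        _ = 324 * K ^ 24 * #A' ^ 2 := by ring
    have := card_insert_le (1 : ZMod qq) Γ
    have : 0 < K ^ 24 := by positivity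
    rw [hS, freqBound]
    omega
  refine ⟨#S, fun i => H (Pi.single i 1), M, hk, fun x hx y hy h => ?_, fun x hx => ?_, ?_⟩
  · refine hinj x y hx hy ((hφ.eq_iff (hH x hx) (hH y hy)).2 ?_)
    rw [hlin x hx, hlin y hy]
    exact h
  · obtain ⟨a₁, ha₁, a₂, ha₂, a₃, ha₃, a₄, ha₄, he, -⟩ := hH x hx
    rw [← hlin x hx, ← he, sub_sub, two_nsmul]
    exact sub_mem_sub (add_mem_add (hA' ha₁) (hA' ha₂)) (add_mem_add (hA' ha₃) (hA' ha₄))
  · refine (show #A ≤ qq by omega).trans (hsize.trans (Nat.mul_le_mul_right _ ?_))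
    rw [gapLoss]
    have h1 : 1 ≤ #S := card_pos.2 (insert_nonempty _ _)
    exact (Nat.pow_le_pow_left (Nat.mul_le_mul_left 10 (Nat.pow_le_pow_left hk 3)) _).trans
      (Nat.pow_le_pow_right (Nat.pos_of_ne_zero (by
        have : 0 < freqBound K := h1.trans hk
        positivity)) hk)

/-- **Freiman's theorem**, with the constants `freimanDim` and `freimanConst`. -/
theorem freiman_explicit {K : ℕ} (hA : A.Nonempty) (hK : #(A + A) ≤ K * #A) :
    ∃ d, d ≤ freimanDim K ∧ ∃ (a₀ : ℤ) (v : Fin d → ℤ) (L : Fin d → ℕ),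
      ∏ i, L i ≤ freimanConst K * #A ∧
      ∀ a ∈ A, ∃ x : Fin d → ℕ, (∀ i, x i < L i) ∧ a = a₀ + ∑ i, (x i : ℤ) * v i := by
  classical
  obtain ⟨k, D, M, hk, hinj, hmem, hbig⟩ := exists_gap_in_difference hA hK
  obtain ⟨box, hboxdef⟩ : ∃ s : Finset (Fin k → ℤ),
      s = Fintype.piFinset fun i => Icc (-(M i : ℤ)) (M i) := ⟨_, rfl⟩
  have hbox : ∀ x, x ∈ box ↔ ∀ i, |x i| ≤ M i := fun x => by
    simp [hboxdef, abs_le]
  set P := box.image (fun x => ∑ i, x i * D i) with hP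
  have hPcard : #P = ∏ i, (2 * M i + 1) := by
    rw [hP, card_image_of_injOn fun x hx y hy => hinj ((hbox x).1 hx) ((hbox y).1 hy), hboxdef,
      Fintype.card_piFinset]
    exact prod_congr rfl fun i _ => by rw [Int.card_Icc]; omega
  have hPsub : P ⊆ 2 • A - 2 • A := fun z hz => by
    obtain ⟨x, hx, rfl⟩ := mem_image.1 hz
    exact hmem x ((hbox x).1 hx)
  have hPne : P.Nonempty := card_pos.1 (by rw [hPcard]; exact prod_pos fun i _ => by omega)
  have hAP : #(A + P) ≤ K ^ 5 * gapLoss K * #P := by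
    calc #(A + P) ≤ #(3 • A - 2 • A) := card_le_card fun z hz => by
          obtain ⟨a, ha, b, hb, rfl⟩ := mem_add.1 hz
          obtain ⟨c, hc, e, he, rfl⟩ := mem_sub.1 (hPsub hb)
          rw [← add_sub_assoc, succ_nsmul' A 2]
          exact sub_mem_sub (add_mem_add ha hc) he
      _ ≤ K ^ 5 * #A := card_nsmul_sub_le hA hK 3 2
      _ ≤ K ^ 5 * (gapLoss K * #P) := Nat.mul_le_mul_left _ (hPcard ▸ hbig)
      _ = _ := by ring
  obtain ⟨F, -, hF, hcover⟩ := Finset.ruzsa_covering_add (K := ((K ^ 5 * gapLoss K : ℕ) : ℝ)) hPne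
    (by exact_mod_cast hAP)
  have hF' : #F ≤ K ^ 5 * gapLoss K := by exact_mod_cast hF
  set e := Fintype.equivFin (Fin k ⊕ {s // s ∈ F}) with he
  set v : Fin k ⊕ {s // s ∈ F} → ℤ := Sum.elim D fun s => s.1 with hv
  set L : Fin k ⊕ {s // s ∈ F} → ℕ := Sum.elim (fun i => 4 * M i + 1) fun _ => 2 with hL
  have hdim : Fintype.card (Fin k ⊕ {s // s ∈ F}) ≤ freimanDim K := by
    rw [Fintype.card_sum, Fintype.card_fin, Fintype.card_coe, freimanDim]
    omega
  refine ⟨_, hdim, -∑ i, (2 * M i : ℕ) * D i, v ∘ e.symm, L ∘ e.symm, ?_, fun a ha => ?_⟩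
  · rw [show ∏ i, (L ∘ e.symm) i = ∏ i, L i from e.symm.prod_comp L, Fintype.prod_sum_type,
      hL]
    simp only [Sum.elim_inl, Sum.elim_inr, prod_const, card_univ, Fintype.card_coe]
    calc (∏ i, (4 * M i + 1)) * 2 ^ #F ≤ (2 ^ k * #P) * 2 ^ #F := by
          refine Nat.mul_le_mul_right _ ?_
          rw [hPcard, show (2 : ℕ) ^ k = ∏ _i : Fin k, 2 by simp, ← prod_mul_distrib]
          exact prod_le_prod' fun i _ => by omega
      _ = 2 ^ (k + #F) * #P := by ring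
      _ ≤ 2 ^ freimanDim K * (K ^ 4 * #A) := by
          refine Nat.mul_le_mul (Nat.pow_le_pow_right two_pos ?_)
            ((card_le_card hPsub).trans (card_nsmul_sub_le hA hK 2 2))
          rw [freimanDim]
          omega
      _ = freimanConst K * #A := by rw [freimanConst]; ring
  obtain ⟨f, hf, d, hd, rfl⟩ := mem_add.1 (hcover ha)
  obtain ⟨u, hu, w, hw, rfl⟩ := mem_sub.1 hd
  obtain ⟨x, hx, rfl⟩ := mem_image.1 hu
  obtain ⟨y, hy, rfl⟩ := mem_image.1 hw
  rw [hbox] at hx hy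
  obtain ⟨c, hc⟩ : ∃ c : Fin k ⊕ {s // s ∈ F} → ℕ, c = Sum.elim
      (fun i => (x i - y i + 2 * M i).toNat) (fun s => if s = ⟨f, hf⟩ then 1 else 0) := ⟨_, rfl⟩
  refine ⟨c ∘ e.symm, fun i => ?_, ?_⟩
  · simp only [Function.comp_apply]
    rcases e.symm i with j | s
    · simp only [hc, hL, Sum.elim_inl]
      have := abs_le.1 (hx j)
      have := abs_le.1 (hy j)
      omega
    · simp only [hc, hL, Sum.elim_inr]
      split_ifs <;> norm_num
  · rw [show ∑ i, (((c ∘ e.symm) i : ℕ) : ℤ) * (v ∘ e.symm) i = ∑ j, (c j : ℤ) * v j from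
      e.symm.sum_comp fun j => (c j : ℤ) * v j, Fintype.sum_sum_type]
    simp only [hc, hv, Sum.elim_inl, Sum.elim_inr]
    have e1 : ∀ i, (((x i - y i + 2 * M i).toNat : ℕ) : ℤ) = x i - y i + 2 * M i := fun i => by
      have := abs_le.1 (hx i)
      have := abs_le.1 (hy i)
      omega
    have e2 : ∑ s : {s // s ∈ F}, ((if s = ⟨f, hf⟩ then 1 else 0 : ℕ) : ℤ) * s.1 = f := by
      rw [sum_eq_single (⟨f, hf⟩ : {s // s ∈ F}) (fun s _ hs => by simp [hs]) (by simp)]
      simp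
    rw [e2]
    simp only [e1, add_mul, sub_mul, sum_add_distrib, sum_sub_distrib, Nat.cast_mul,
      Nat.cast_ofNat]
    ring

end FA.FreimanTheorem
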