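import Mathlib.Combinatorics.Additive.PluenneckeRuzsa
import Mathlib.Data.ZMod.Basic
import Mathlib.Algebra.BigOperators.Fin
import Mathlib.Data.Int.Interval
import Mathlib.Data.Nat.Prime.Int
import Mathlib.Algebra.BigOperators.Ring.Finset
import Mathlib.Tactic.Linarith
import Mathlib.Tactic.LinearCombination

/-!
# Ruzsa's modelling lemma

A sixth of a finite set `A` of integers is Freiman isomorphic of order `6` to a subset of `ℤ / q`,
for every `q` greater than twice the size of `6 A - 6 A`.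
-/

set_option autoImplicit false

noncomputable section

namespace FA.FreimanTheorem

open Finset
open scoped Pointwise

theorem sum_mem_nsmul {G : Type*} [DecidableEq G] [AddCommMonoid G] {A : Finset G} :
    ∀ {n : ℕ} (a : Fin n → G), (∀ i, a i ∈ A) → ∑ i, a i ∈ n • A
  | 0, a, _ => by simp
  | n + 1, a, h => by
    rw [Fin.sum_univ_castSucc, succ_nsmul]
    exact add_mem_add (sum_mem_nsmul _ fun i => h _) (h _)

/-- `φ` is a Freiman isomorphism of order `6` on `A`. -/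
def IsModel {q : ℕ} (A : Finset ℤ) (φ : ℤ → ZMod q) : Prop :=
  ∀ a b : Fin 6 → ℤ, (∀ i, a i ∈ A) → (∀ i, b i ∈ A) →
    (∑ i, φ (a i) = ∑ i, φ (b i) ↔ ∑ i, a i = ∑ i, b i)

/-- Multipliers `t < p` sending `d` to a nonzero multiple of `q` in `(-p, p)`. -/
def badMultipliers (p q : ℕ) (d : ℤ) : Finset ℕ :=
  ((Icc (-(((p - 1) / q : ℕ) : ℤ)) ((p - 1) / q : ℕ)).erase 0).biUnion fun i =>
    (Ico 1 p).filter fun t => (p : ℤ) ∣ (t : ℤ) * d - (q : ℤ) * i

theorem card_badMultipliers_le {p : ℕ} (hp : p.Prime) (q : ℕ) {d : ℤ} (hd : ¬(p : ℤ) ∣ d) :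
    #(badMultipliers p q d) ≤ 2 * ((p - 1) / q) := by
  refine (card_biUnion_le_card_mul _ _ 1 fun i _ => card_le_one.2 fun s hs t ht => ?_).trans ?_
  · simp only [mem_filter, mem_Ico] at hs ht
    have h := dvd_sub hs.2 ht.2
    rw [show (s : ℤ) * d - q * i - ((t : ℤ) * d - q * i) = ((s : ℤ) - t) * d by ring] at h
    rcases (Nat.prime_iff_prime_int.1 hp).dvd_mul.1 h with h' | h'
    · have := Int.eq_zero_of_dvd_of_natAbs_lt_natAbs h' (by omega)
      omega
    · exact absurd h' hd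
  · generalize (p - 1) / q = m
    rw [mul_one, card_erase_of_mem (mem_Icc.2 ⟨by omega, by omega⟩), Int.card_Icc]
    omega

/-- A prime and a multiplier without collisions. -/
theorem exists_multiplier (D : Finset ℤ) {q : ℕ} (hq : 2 * #D < q) :
    ∃ p t : ℕ, p.Prime ∧ (∀ d ∈ D, d.natAbs < p) ∧ 1 ≤ t ∧ t < p ∧
      ∀ d ∈ D, d ≠ 0 → ∀ i : ℤ, |(q : ℤ) * i| < p → ¬(p : ℤ) ∣ (t : ℤ) * d - (q : ℤ) * i := by
  obtain ⟨p, hle, hp⟩ := Nat.exists_infinite_primes (D.sup Int.natAbs + 1)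
  have hlt : ∀ d ∈ D, d.natAbs < p := fun d hd => (le_sup (f := Int.natAbs) hd).trans_lt hle
  have hndvd : ∀ d ∈ D.erase 0, ¬(p : ℤ) ∣ d := fun d hd h => (mem_erase.1 hd).1
    (Int.eq_zero_of_dvd_of_natAbs_lt_natAbs h (by simpa using hlt d (mem_erase.1 hd).2))
  have hcard : #((D.erase 0).biUnion (badMultipliers p q)) < #(Ico 1 p) := by
    refine (card_biUnion_le_card_mul _ _ (2 * ((p - 1) / q))
      fun d hd => card_badMultipliers_le hp q (hndvd d hd)).trans_lt ?_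
    rw [Nat.card_Ico]
    set m := (p - 1) / q with hm
    have h1 : q * m ≤ p - 1 := Nat.mul_div_le (p - 1) q
    have h2 : #(D.erase 0) ≤ #D := card_erase_le
    have := hp.two_le
    rcases Nat.eq_zero_or_pos m with h0 | h0
    · rw [h0, mul_zero, mul_zero]
      omega
    · calc #(D.erase 0) * (2 * m) ≤ #D * (2 * m) := Nat.mul_le_mul_right _ h2
        _ = 2 * #D * m := by ring
        _ < q * m := Nat.mul_lt_mul_of_pos_right hq h0
        _ ≤ p - 1 := h1
  obtain ⟨t, ht, hbad⟩ := exists_mem_notMem_of_card_lt_card hcard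
  rw [mem_Ico] at ht
  refine ⟨p, t, hp, hlt, ht.1, ht.2, fun d hd hd0 i hi hdvd => hbad ?_⟩
  rw [mem_biUnion]
  refine ⟨d, mem_erase.2 ⟨hd0, hd⟩, ?_⟩
  rw [badMultipliers, mem_biUnion]
  refine ⟨i, ?_, mem_filter.2 ⟨mem_Ico.2 ht, hdvd⟩⟩
  have hi0 : i ≠ 0 := by
    rintro rfl
    rw [mul_zero, sub_zero] at hdvd
    rcases (Nat.prime_iff_prime_int.1 hp).dvd_mul.1 hdvd with h' | h'
    · have := Int.le_of_dvd (by omega) h'
      omega
    · exact hndvd d (mem_erase.2 ⟨hd0, hd⟩) h'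
  have hb : i.natAbs ≤ (p - 1) / q := by
    rw [Nat.le_div_iff_mul_le (by omega)]
    have : (((q : ℤ) * i).natAbs : ℤ) < p := by rwa [Int.natCast_natAbs]
    rw [Int.natAbs_mul, Int.natAbs_natCast] at this
    have : q * i.natAbs < p := by exact_mod_cast this
    rw [mul_comm]
    omega
  rw [mem_erase, mem_Icc]
  exact ⟨hi0, by omega, by omega⟩

/-- **Ruzsa's modelling lemma.** -/
theorem exists_model {A : Finset ℤ} {q : ℕ} (hq : 2 * #(6 • A - 6 • A) < q) :
    ∃ A' ⊆ A, #A ≤ 6 * #A' ∧ ∃ φ : ℤ → ZMod q, IsModel A' φ := by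
  obtain ⟨p, t, hp, hlt, ht1, ht2, hgood⟩ := exists_multiplier _ hq
  have hp0 : (0 : ℤ) < p := by exact_mod_cast hp.pos
  obtain ⟨g, hgdef⟩ : ∃ g : ℤ → ℤ, g = fun x => (t : ℤ) * x % p := ⟨_, rfl⟩
  have hg0 : ∀ x, 0 ≤ g x := fun x => hgdef ▸ Int.emod_nonneg _ hp0.ne'
  have hg1 : ∀ x, g x < p := fun x => hgdef ▸ Int.emod_lt_of_pos _ hp0
  have hgd : ∀ x, (p : ℤ) ∣ (t : ℤ) * x - g x := fun x => by
    rw [hgdef]
    exact Int.dvd_self_sub_emod
  set part : ℤ → ℕ := fun x => (6 * g x / p).toNat with hpart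
  have hmaps : ∀ x ∈ A, part x ∈ range 6 := fun x _ => by
    simp only [mem_range, hpart]
    have : 6 * g x / (p : ℤ) < 6 := Int.ediv_lt_of_lt_mul hp0 (by linarith [hg1 x])
    omega
  obtain ⟨j, hj, hmax⟩ := exists_max_image (range 6) (fun j => #(A.filter fun x => part x = j))
    ⟨0, by simp⟩
  refine ⟨A.filter fun x => part x = j, filter_subset _ _, ?_,
    fun x => ((g x : ℤ) : ZMod q), fun a b ha hb => ?_⟩
  · calc #A = ∑ i ∈ range 6, #(A.filter fun x => part x = i) :=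
          card_eq_sum_card_fiberwise hmaps
      _ ≤ ∑ _i ∈ range 6, #(A.filter fun x => part x = j) := sum_le_sum hmax
      _ = 6 * #(A.filter fun x => part x = j) := by simp
  have hint : ∀ x ∈ A.filter (fun x => part x = j),
      (j : ℤ) * p ≤ 6 * g x ∧ 6 * g x < ((j : ℤ) + 1) * p := by
    intro x hx
    have e : 6 * g x / (p : ℤ) = j := by
      have := (mem_filter.1 hx).2
      simp only [hpart] at this
      have := Int.ediv_nonneg (a := 6 * g x) (by linarith [hg0 x]) hp0.le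
      omega
    exact ⟨(Int.le_ediv_iff_mul_le hp0).1 e.ge,
      (Int.ediv_lt_iff_lt_mul hp0).1 (by omega)⟩
  have hd : ∑ i, a i - ∑ i, b i ∈ 6 • A - 6 • A :=
    sub_mem_sub (sum_mem_nsmul a fun i => (mem_filter.1 (ha i)).1)
      (sum_mem_nsmul b fun i => (mem_filter.1 (hb i)).1)
  set Δ := ∑ i, g (a i) - ∑ i, g (b i) with hΔ
  set d := ∑ i, a i - ∑ i, b i with hddef
  have hΔp : |Δ| < p := by
    have A1 := fun i => hint _ (ha i)
    have B1 := fun i => hint _ (hb i)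
    rw [hΔ, abs_lt, Fin.sum_univ_six, Fin.sum_univ_six]
    constructor <;>
      linarith [A1 0, A1 1, A1 2, A1 3, A1 4, A1 5, B1 0, B1 1, B1 2, B1 3, B1 4, B1 5]
  have hcong : (p : ℤ) ∣ (t : ℤ) * d - Δ := by
    have h := dvd_sub (dvd_sum fun i (_ : i ∈ univ) => hgd (a i))
      (dvd_sum fun i (_ : i ∈ univ) => hgd (b i))
    rw [sum_sub_distrib, sum_sub_distrib, ← mul_sum, ← mul_sum] at h
    rwa [show (t : ℤ) * d - Δ = (t : ℤ) * ∑ i, a i - ∑ i, g (a i) -
      ((t : ℤ) * ∑ i, b i - ∑ i, g (b i)) by rw [hΔ, hddef]; ring]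
  simp only [← Int.cast_sum]
  rw [ZMod.intCast_eq_intCast_iff_dvd_sub]
  constructor
  · rintro ⟨i, hi⟩
    by_contra hne
    refine hgood d hd (sub_ne_zero.2 hne) (-i) ?_ ?_
    · rw [mul_neg, abs_neg, ← hi, abs_sub_comm, ← hΔ]
      exact hΔp
    · rwa [show (t : ℤ) * d - q * -i = (t : ℤ) * d - Δ by rw [hΔ]; linear_combination -hi]
  · intro heq
    rw [hddef, heq, sub_self, mul_zero, zero_sub, dvd_neg] at hcong
    have := abs_lt.1 hΔp
    have := Int.eq_zero_of_dvd_of_natAbs_lt_natAbs hcong (by omega)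
    rw [show ∑ i, g (b i) - ∑ i, g (a i) = -Δ by rw [hΔ]; ring, this, neg_zero]
    exact dvd_zero _

end FA.FreimanTheorem
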